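import Fermat.Agent.R59.Semisimple
import Fermat.Agent.R59.Setup
import Fermat.Agent.R59.Top.Adjoint
import Fermat.Agent.R59.Top.Algebra
import Fermat.Agent.TW.Mod.Packaged
import Fermat.Agent.LL.Pair.Parabolic

/-!
# The localised part of `Hom(Γ₀(N), 𝒪)` inside the parabolic classes

* `goodAlg N 𝒪`: the algebra of the good operators on `H(𝒪)`; it is self-adjoint for the twisted
  pairing and acts by scalars on eigen lattices.
* `localPart h`: the parabolic classes in the range of the idempotent of `h`. When the system is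
  not Eisenstein at a prime `≡ 1 (mod N)` it is all of that range.
-/

set_option autoImplicit false
set_option linter.unusedSectionVars false

noncomputable section

open IsLocalRing CongruenceSubgroup ModularCurve.Period

namespace Fermat.Agent.R59

open Fermat.Agent.TW.Mod
open Fermat.Agent.HK (HSpace heckeEnd heckeHom heckeAct heckeAct_heckeFormsGen hom_heckeEnd)
open Fermat.Agent.LR (Hom1)

variable (N : ℕ) [NeZero N] (𝒪 : Type) [CommRing 𝒪] [IsDomain 𝒪] [CharZero 𝒪]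

/-- The algebra of the good operators. -/
def goodAlg : Subalgebra 𝒪 (Module.End 𝒪 (HSpace N 𝒪)) := Algebra.adjoin 𝒪 (goodHeckeSet N 𝒪)

variable {N 𝒪}

theorem heckeEnd_mem_goodAlg {ℓ : ℕ} [hℓ : Fact ℓ.Prime] (h : ¬ ℓ ∣ N) :
    heckeEnd N ℓ 𝒪 ∈ goodAlg N 𝒪 :=
  Algebra.subset_adjoin ⟨ℓ, hℓ.out, h, rfl⟩

theorem heckeEnd_comm' (ℓ r : ℕ) [hl : Fact ℓ.Prime] [hr : Fact r.Prime] :
    Commute (heckeEnd N ℓ 𝒪) (heckeEnd N r 𝒪) := by
  rw [← heckeAct_heckeFormsGen N 𝒪 ⟨ℓ, hl.out⟩, ← heckeAct_heckeFormsGen N 𝒪 ⟨r, hr.out⟩]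
  exact (Commute.all _ _).map (heckeAct N 𝒪)

theorem goodAlg_commute {a b : Module.End 𝒪 (HSpace N 𝒪)} (ha : a ∈ goodAlg N 𝒪)
    (hb : b ∈ goodAlg N 𝒪) : a * b = b * a := by
  have := Algebra.isMulCommutative_adjoin 𝒪 (s := goodHeckeSet N 𝒪) (by
    rintro _ ⟨l, hl, -, rfl⟩ _ ⟨r, hr, -, rfl⟩
    exact @heckeEnd_comm' N _ 𝒪 _ _ _ l r ⟨hl⟩ ⟨hr⟩)
  exact congrArg Subtype.val (mul_comm' (⟨a, ha⟩ : Algebra.adjoin 𝒪 (goodHeckeSet N 𝒪)) ⟨b, hb⟩)

theorem twistedPairing_goodAlg {a : Module.End 𝒪 (HSpace N 𝒪)} (ha : a ∈ goodAlg N 𝒪)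
    (x y : HSpace N 𝒪) : twistedPairing N 𝒪 (a x) y = twistedPairing N 𝒪 x (a y) := by
  induction ha using Algebra.adjoin_induction generalizing x y with
  | mem b hb =>
    obtain ⟨l, hl, -, rfl⟩ := hb
    exact @twistedPairing_heckeEnd _ _ _ ⟨hl⟩ _ _ _ x y
  | algebraMap c => simp [Module.algebraMap_end_apply]
  | add b c _ _ hb hc => simp [hb, hc]
  | mul b c hb' hc' hb hc =>
    rw [Module.End.mul_apply, hb, hc, ← Module.End.mul_apply, goodAlg_commute hc' hb']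

/-- The good operators act by scalars on a good eigen lattice. -/
theorem exists_scalar_goodAlg (a : ℕ → 𝒪) {b : Module.End 𝒪 (HSpace N 𝒪)}
    (hb : b ∈ goodAlg N 𝒪) :
    ∃ c : 𝒪, ∀ x ∈ eigenClasses N 𝒪 {ℓ | ¬ ℓ ∣ N} a, b x = c • x := by
  induction hb using Algebra.adjoin_induction with
  | mem b hb =>
    obtain ⟨l, hl, hlN, rfl⟩ := hb
    exact ⟨a l, fun x hx => @(mem_eigenClasses _ 𝒪).mp hx l hlN ⟨hl⟩⟩
  | algebraMap c => exact ⟨c, fun x _ => rfl⟩
  | add b c _ _ hb hc =>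
    obtain ⟨u, hu⟩ := hb
    obtain ⟨v, hv⟩ := hc
    exact ⟨u + v, fun x hx => by
      show b x + c x = _
      rw [hu x hx, hv x hx, add_smul]⟩
  | mul b c _ _ hb hc =>
    obtain ⟨u, hu⟩ := hb
    obtain ⟨v, hv⟩ := hc
    exact ⟨v * u, fun x hx => by
      show b (c x) = _
      rw [hv x hx, map_smul, hu x hx, smul_smul]⟩

variable {S : Set ℕ} (hSN : ∀ q : ℕ, q.Prime → q ∣ N → q ∈ S)

include hSN in
/-- The Hecke algebra away from `S` acts through the good operators. -/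
theorem heckeAct_mem_goodAlg (t : CuspForm.heckeAlgebra N 2 S) :
    heckeAct N 𝒪 (Subalgebra.inclusion (CuspForm.heckeAlgebra_mono (Set.empty_subset S)) t) ∈
      goodAlg N 𝒪 := by
  obtain ⟨t, ht⟩ := t
  induction ht using Algebra.adjoin_induction with
  | mem x hx =>
    rcases hx with ⟨l, hl, hlN, hlS, rfl⟩ | ⟨q, hqN, hq, hqS, rfl⟩
    · have : Fact l.Prime := ⟨hl⟩
      have e := heckeAct_heckeFormsGen N 𝒪 ⟨l, hl⟩
      refine (congrArg (· ∈ goodAlg N 𝒪) ?_).mpr (heckeEnd_mem_goodAlg (ℓ := l) hlN)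
      rw [← e]
      refine congrArg (heckeAct N 𝒪) (Subtype.ext ?_)
      unfold CuspForm.heckeFormsGen
      simp only [hlN, ↓reduceDIte]
      rfl
    · exact absurd (hSN q hq hqN) hqS
  | algebraMap c =>
    have h := (heckeAct N 𝒪).toIntAlgHom.commutes c
    exact (congrArg (· ∈ goodAlg N 𝒪) h).mpr (Subalgebra.intCast_mem _ c)
  | add b c hb' hc' hb hc =>
    have h := add_mem hb hc
    rw [← map_add] at h
    exact h
  | mul b c hb' hc' hb hc =>
    have h := mul_mem hb hc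
    rw [← map_mul] at h
    exact h

theorem heckeAct_T {l : ℕ} (hl : l.Prime) (hlN : ¬ l ∣ N) (hlS : l ∉ S) :
    heckeAct N 𝒪 (Subalgebra.inclusion (CuspForm.heckeAlgebra_mono (Set.empty_subset S))
      (CuspForm.heckeAlgebra.T hl hlN hlS)) = (haveI := Fact.mk hl; heckeEnd N l 𝒪) := by
  have : Fact l.Prime := ⟨hl⟩
  rw [← heckeAct_heckeFormsGen N 𝒪 ⟨l, hl⟩]
  refine congrArg (heckeAct N 𝒪) (Subtype.ext ?_)
  unfold CuspForm.heckeFormsGen
  simp only [hlN, ↓reduceDIte]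
  rfl

section Local

variable [IsDiscreteValuationRing 𝒪] [IsAdicComplete (maximalIdeal 𝒪) 𝒪]
  {lam : PrimeIdx S → ResidueField 𝒪}

/-- The scalar by which an element of the generated algebra acts on an eigen lattice. -/
theorem exists_scalar_famAlg (a : ℕ → 𝒪) (hgood : ∀ ℓ : ℕ, ℓ.Prime → ℓ ∉ S → ¬ ℓ ∣ N)
    {b : Module.End 𝒪 (Hom1 N 𝒪)} (hb : b ∈ famAlg 𝒪 (heckeFam 𝒪 N S)) :
    ∃ c : 𝒪, ∀ x ∈ eigenClasses N 𝒪 {ℓ | ¬ ℓ ∣ N} a, b x.hom = c • x.hom := by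
  induction hb using Algebra.adjoin_induction with
  | mem b hb =>
    obtain ⟨i, rfl⟩ := hb
    refine ⟨a i.1, fun x hx => ?_⟩
    show heckeHom N i.1 𝒪 𝒪 x.hom = _
    rw [← hom_heckeEnd, (mem_eigenClasses _ 𝒪).mp hx i.1 (hgood i.1 i.2.1 i.2.2)]
    rfl
  | algebraMap c => exact ⟨c, fun x _ => rfl⟩
  | add b c _ _ hb hc =>
    obtain ⟨u, hu⟩ := hb
    obtain ⟨v, hv⟩ := hc
    exact ⟨u + v, fun x hx => by
      show b x.hom + c x.hom = _
      rw [hu x hx, hv x hx, add_smul]⟩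
  | mul b c _ _ hb hc =>
    obtain ⟨u, hu⟩ := hb
    obtain ⟨v, hv⟩ := hc
    exact ⟨v * u, fun x hx => by
      show b (c x.hom) = _
      rw [hv x hx, map_smul, hu x hx, smul_smul]⟩

/-- A nonzero eigen class makes the residual system occur, and the idempotent fixes the eigen
classes. -/
theorem occurs_of_eigen (a : ℕ → 𝒪) (hgood : ∀ ℓ : ℕ, ℓ.Prime → ℓ ∉ S → ¬ ℓ ∣ N)
    (hlam : ∀ i : PrimeIdx S, lam i = residue 𝒪 (a i.1)) {x₀ : HSpace N 𝒪}
    (hx₀ : x₀ ∈ eigenClasses N 𝒪 {ℓ | ¬ ℓ ∣ N} a) (h0 : x₀ ≠ 0) :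
    ∃ h : Occurs 𝒪 (heckeFam 𝒪 N S) lam,
      ∀ x ∈ eigenClasses N 𝒪 {ℓ | ¬ ℓ ∣ N} a, h.idem (heckeFam_comm N S) x.hom = x.hom := by
  have huniq : ∀ u v : 𝒪, u • x₀.hom = v • x₀.hom → u = v := fun u v h => by
    by_contra hne
    refine h0 (hSpace_smul_cancel (sub_ne_zero.mpr hne) ?_)
    rw [smul_zero, sub_smul]
    refine HSpace.hom_injective ?_
    show u • x₀.hom - v • x₀.hom = _
    rw [h, sub_self]
    rfl
  choose c hc using fun b : famAlg 𝒪 (heckeFam 𝒪 N S) => exists_scalar_famAlg a hgood b.2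
  let χ : famAlg 𝒪 (heckeFam 𝒪 N S) →ₐ[𝒪] 𝒪 :=
    { toFun := c
      map_one' := huniq _ _ (by rw [← hc 1 x₀ hx₀, one_smul]; rfl)
      map_mul' := fun u v => huniq _ _ (by
        rw [← hc (u * v) x₀ hx₀]
        show u.1 (v.1 x₀.hom) = _
        rw [hc v x₀ hx₀, map_smul, hc u x₀ hx₀, smul_smul, mul_comm])
      map_zero' := huniq _ _ (by rw [← hc 0 x₀ hx₀, zero_smul]; rfl)
      map_add' := fun u v => huniq _ _ (by
        rw [← hc (u + v) x₀ hx₀, add_smul, ← hc u x₀ hx₀, ← hc v x₀ hx₀]; rfl)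
      commutes' := fun r => huniq _ _ (by rw [← hc _ x₀ hx₀]; rfl) }
  let φ : famAlg 𝒪 (heckeFam 𝒪 N S) →ₐ[𝒪] ResidueField 𝒪 :=
    (Algebra.ofId 𝒪 (ResidueField 𝒪)).comp χ
  have hφ : ∀ i, φ (famGen 𝒪 (heckeFam 𝒪 N S) i) = lam i := fun i => by
    have e : χ (famGen 𝒪 (heckeFam 𝒪 N S) i) = a i.1 := huniq _ _ (by
      show c _ • x₀.hom = _
      rw [← hc _ x₀ hx₀]
      show heckeHom N i.1 𝒪 𝒪 x₀.hom = _
      rw [← hom_heckeEnd, (mem_eigenClasses _ 𝒪).mp hx₀ i.1 (hgood i.1 i.2.1 i.2.2)]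
      rfl)
    show residue 𝒪 (χ _) = _
    rw [e, hlam]
  refine ⟨⟨φ, hφ⟩, fun x hx => ?_⟩
  set h : Occurs 𝒪 (heckeFam 𝒪 N S) lam := ⟨φ, hφ⟩
  set e : famAlg 𝒪 (heckeFam 𝒪 N S) :=
    ⟨h.idem (heckeFam_comm N S), h.idem_mem (heckeFam_comm N S)⟩ with he
  have h1 : residue 𝒪 (χ e) = 1 := by
    have := h.char_idem (heckeFam_comm N S)
    rw [h.char_eq hφ] at this
    exact this
  have h2 : χ e * χ e = χ e := by
    rw [← map_mul]
    exact congrArg χ (Subtype.ext (h.idem_mul_idem (heckeFam_comm N S)))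
  have h3 : χ e = 1 := by
    rcases eq_or_ne (χ e) 0 with h0' | h0'
    · rw [h0', map_zero] at h1
      exact absurd h1 zero_ne_one
    · exact mul_left_eq_self₀.1 h2 |>.resolve_right h0'
  show e.1 x.hom = x.hom
  rw [hc e x hx, show c e = χ e from rfl, h3, one_smul]

variable (h : Occurs 𝒪 (heckeFam 𝒪 N S) lam)

/-- The parabolic classes in the localised part. -/
def localPart : Submodule 𝒪 (HSpace N 𝒪) :=
  (LinearMap.range (h.idem (heckeFam_comm N S))).comap (HSpace.homLin N 𝒪)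

theorem mem_localPart {x : HSpace N 𝒪} :
    x ∈ localPart h ↔ h.idem (heckeFam_comm N S) x.hom = x.hom := by
  show x.hom ∈ LinearMap.range _ ↔ _
  exact mem_range_iff_of_idem (h.idem_mul_idem (heckeFam_comm N S))

/-- Every good operator stabilises the localised part. -/
theorem goodAlg_stable {b : Module.End 𝒪 (HSpace N 𝒪)} (hb : b ∈ goodAlg N 𝒪) :
    ∀ x ∈ localPart h, b x ∈ localPart h := by
  induction hb using Algebra.adjoin_induction with
  | mem b hb =>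
    obtain ⟨l, hl, hlN, rfl⟩ := hb
    have : Fact l.Prime := ⟨hl⟩
    intro x hx
    rw [mem_localPart] at hx ⊢
    rw [hom_heckeEnd]
    have hcomm : ∀ d ∈ famAlg 𝒪 (heckeFam 𝒪 N S),
        Commute (heckeHom N l 𝒪 𝒪 : Module.End 𝒪 (Hom1 N 𝒪)) d := by
      intro d hd
      induction hd using Algebra.adjoin_induction with
      | mem d hd =>
        obtain ⟨i, rfl⟩ := hd
        exact LinearMap.ext fun φ => heckeHom_comm N l i.1 φ
      | algebraMap c => exact (Algebra.commutes c _).symm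
      | add d d' _ _ h1 h2 => exact h1.add_right h2
      | mul d d' _ _ h1 h2 => exact h1.mul_right h2
    refine (LinearMap.congr_fun (hcomm _ (h.idem_mem (heckeFam_comm N S))).eq x.hom).symm.trans ?_
    show heckeHom N l 𝒪 𝒪 (h.idem (heckeFam_comm N S) x.hom) = _
    rw [hx]
  | algebraMap c => exact fun x hx => (localPart h).smul_mem c hx
  | add b c _ _ hb hc => exact fun x hx => add_mem (hb x hx) (hc x hx)
  | mul b c _ _ hb hc => exact fun x hx => hb _ (hc x hx)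

/-- Non-Eisenstein at a prime `≡ 1 (mod N)`: the localised part is parabolic. -/
theorem exists_localPart_eq (i : PrimeIdx S) (hi1 : (i.1 : ZMod N) = 1) (hiN : ¬ i.1 ∣ N)
    (hi : lam i ≠ (i.1 : ResidueField 𝒪) + 1) {y : Hom1 N 𝒪}
    (hy : y ∈ LinearMap.range (h.idem (heckeFam_comm N S))) :
    ∃ x ∈ localPart h, x.hom = y := by
  obtain ⟨hm, v, hvm, hv⟩ := h.exists_inv_sub_algebraMap (heckeFam_comm N S) i ((i.1 : 𝒪) + 1)
    (by rw [map_add, map_natCast, map_one]; exact hi)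
  have hy' : h.idem (heckeFam_comm N S) y = y :=
    (mem_range_iff_of_idem (h.idem_mul_idem (heckeFam_comm N S))).1 hy
  set z := v y
  have e : y = heckeHom N i.1 𝒪 𝒪 z - ((i.1 : ℤ) + 1) • z := by
    conv_lhs => rw [← hy', ← hv]
    rw [(famAlg_commute (heckeFam_comm N S) hvm hm).eq]
    show (heckeFam 𝒪 N S i - algebraMap 𝒪 _ ((i.1 : 𝒪) + 1))
      (v (h.idem (heckeFam_comm N S) y)) = _
    rw [hy', LinearMap.sub_apply, Module.algebraMap_end_apply, ← Int.cast_smul_eq_zsmul 𝒪]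
    push_cast
    rfl
  have hpar : y ∈ parabolicHoms 𝒪 (Gamma0 N) 𝒪 := by
    rw [e]
    exact LL.Pair.isParabolicHom_heckeHom_sub (R := 𝒪) hi1 hiN z
  exact ⟨HK.HSpace.mk y hpar, (mem_localPart h).2 hy', rfl⟩

end Local

end Fermat.Agent.R59
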