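import Fermat.Agent.R59.Top.GoodClasses

/-!
# The eigen classes of the base level are determined away from the minimal set
-/

set_option autoImplicit false

noncomputable section

open CongruenceSubgroup Function IsLocalRing Polynomial
open scoped MatrixGroups

namespace Fermat.Agent.R59

open ModularFormClass Newforms

variable {W : WeierstrassCurve ℤ} {p : ℕ} {k : Kind}

theorem mem_minSet_of_dvd_baseLevel (hp : p.Prime) {l : ℕ} (hl : l.Prime)
    (h : l ∣ baseLevel W p k) : l ∈ minSet W p := by
  rcases hl.dvd_mul.mp h with h | h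
  · exact Finset.mem_insert_of_mem ((dvd_minLevel_iff W p hl).mp h)
  · rw [(Nat.prime_dvd_prime_iff_eq hl hp).mp (hl.dvd_of_dvd_pow h)]
    exact Finset.mem_insert_self _ _

/-- An eigen class at all primes outside the minimal set is an eigen class at every good prime. -/
theorem mem_baseEigen_of_outside_minSet (U : Setup W p k) (hp : p.Prime)
    [NeZero (baseLevel W p k)] {x : HK.HSpace (baseLevel W p k) U.𝒪}
    (hx : x ∈ eigenClasses (baseLevel W p k) U.𝒪 {ℓ | ℓ ∉ minSet W p} U.a) :
    x ∈ U.baseEigen := by
  classical
  obtain ⟨F, _, ι, σ, e', M, _, g, hg, hMB, he, hgl⟩ := exists_base_newform U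
  set N := baseLevel W p k with hN
  refine (mem_eigenClasses _ _).mpr fun l hlN hf => ?_
  have hlN : ¬ l ∣ N := hlN
  by_cases hlS : l ∈ minSet W p
  swap
  · exact (mem_eigenClasses _ _).mp hx l hlS
  obtain rfl : l = p := by
    rcases Finset.mem_insert.mp hlS with h | h
    · exact h
    · exact absurd (((dvd_minLevel_iff W p hf.out).mpr h).mul_right _) hlN
  have hgood : ∀ r : ℕ, r.Prime → r ∉ minSet W l → ¬ r ∣ N := fun r hr hrS hrN =>
    hrS (mem_minSet_of_dvd_baseLevel hp hr hrN)
  have h := aeval_heckeEnd_eigenClasses_eq_zero N l ι σ {ℓ | ℓ ∉ minSet W l} U.a e'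
    (fun r hr hrT => he r hr (hgood r hr hrT)) (X - C (e' l)) (X - C (U.a l))
    (by simp [he l hp hlN]) (fun f hf' => by
      simp only [Polynomial.map_sub, Polynomial.map_X, Polynomial.map_C, map_sub, aeval_X,
        aeval_C, LinearMap.sub_apply, Module.algebraMap_end_apply]
      rw [HK.heckeFormsLin, dif_neg hlN,
        heckeTLin_eq_of_eigen_away hg hp hlN (fun r hr hrN hrl => by
          have hrS : r ∉ minSet W l := fun hm => by
            rcases Finset.mem_insert.mp hm with h | h
            · exact hrl h
            · exact hrN (((dvd_minLevel_iff W l hr).mpr h).mul_right _)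
          have := @mem_formEigen.1 hf' r hrS ⟨hr⟩
          rwa [HK.heckeFormsLin, dif_neg hrN, Function.comp_apply,
            ← hgl r hr (hgood r hr hrS)] at this),
        hgl l hp hlN, sub_self]) hx
  simpa [sub_eq_zero] using h

end Fermat.Agent.R59
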