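import Fermat.Agent.R59.BaseModule
import Fermat.Agent.R59.BaseData.Eigen
import Fermat.Agent.R59.BaseData.Relation
import Fermat.Agent.R59.HeckeRep
import Fermat.Agent.R59.NonEis
import Fermat.Agent.R59.LocalModule
import Fermat.Agent.R59.TWLevel.Hecke
import Fermat.Agent.R59.TWLevel.Galois
import Fermat.Agent.R59.RaiseTwist

/-!
# The base module

`stmtBaseData_of : StmtHeckeRep → StmtBaseData`: the parabolic model of the non-Eisenstein part of
`Hom(Γ₀(N), 𝒪)` with the action of the minimal deformation ring through the local Hecke algebra.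
-/

set_option autoImplicit false
set_option synthInstance.maxHeartbeats 400000

noncomputable section

open IsLocalRing CuspForm

namespace Fermat.Agent.R59

open Fermat.Agent.TW.Mod

variable {W : WeierstrassCurve ℤ} {p : ℕ} {k : Kind}

/-- The Galois representation of the base level. -/
theorem exists_baseHeckeRep (hrep : StmtHeckeRep) (hyp : CoreHyp W p k) (U : Setup W p k)
    [NeZero (baseLevel W p k)] [Fact (CuspForm.HasIntegralStructure (baseLevel W p k) 2)]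
    (θ : ↥(CuspForm.heckeAlgebra (baseLevel W p k) 2 (↑(minSet W p) : Set ℕ)) →+*
      ResidueField U.𝒪)
    (hθ : U.IsResidChar _ _ θ) :
    ∃ H : CuspForm.HeckeGaloisRepDatum (baseLevel W p k) (↑(minSet W p) : Set ℕ) U.𝒪 θ
        (CuspForm.heckeLocal (baseLevel W p k) (↑(minSet W p) : Set ℕ) U.𝒪 θ),
      H.π = CuspForm.heckeLocal.π _ _ U.𝒪 θ ∧
      cond k.base U.𝒪 p (minSet W p) (minSet W p) H.ρ ∧
      H.ρ.residual.IsEquiv (U.ρbar.baseChangeAlong (ResidueField.map (algebraMap U.𝒪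
        (CuspForm.heckeLocal (baseLevel W p k) (↑(minSet W p) : Set ℕ) U.𝒪 θ)))) := by
  classical
  have key : ∀ (A B : Finset ℕ), (∀ q ∈ A ∪ B, q.Prime ∧ q ≠ p) → Disjoint A B →
      ramPrimes W p ⊆ A → ∀ (N : ℕ) (S T : Finset ℕ), N = mixLevel p k.base A B →
      S = insert p (A ∪ B) → T = insert p A →
      ∀ [NeZero N] [Fact (CuspForm.HasIntegralStructure N 2)]
        (θ : ↥(CuspForm.heckeAlgebra N 2 (↑S : Set ℕ)) →+* ResidueField U.𝒪),
        U.IsResidChar _ _ θ →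
        ∃ H : CuspForm.HeckeGaloisRepDatum N (↑S : Set ℕ) U.𝒪 θ
            (CuspForm.heckeLocal N (↑S : Set ℕ) U.𝒪 θ),
          H.π = CuspForm.heckeLocal.π _ _ U.𝒪 θ ∧ cond k.base U.𝒪 p S T H.ρ ∧
          H.ρ.residual.IsEquiv (U.ρbar.baseChangeAlong (ResidueField.map (algebraMap U.𝒪
            (CuspForm.heckeLocal N (↑S : Set ℕ) U.𝒪 θ)))) := by
    intro A B h1 h2 h3 N S T hN hS hT _ _ θ hθ
    subst hN hS hT
    exact hrep W p k hyp U k.base (Or.inl rfl) A B h1 h2 h3 θ hθ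
  exact key (ramPrimes W p) ∅
    (fun q hq => ⟨prime_of_mem_ramPrimes W p (by simpa using hq),
      ne_of_mem_ramPrimes (W := W) (by simpa using hq)⟩)
    (Finset.disjoint_empty_right _) (Finset.Subset.refl _) _ _ _
    (by simp [mixLevel, baseLevel, minLevel]) (by simp [minSet]) rfl θ hθ

set_option maxHeartbeats 2000000 in
/-- **`StmtBaseData`.** -/
theorem stmtBaseData_of (hrep : StmtHeckeRep) : StmtBaseData := by
  intro W p k hyp U _ D π hπ he
  classical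
  have hp : p.Prime := by rcases hyp.1 with rfl | rfl <;> decide
  have : Fact p.Prime := ⟨hp⟩
  have hp2 : p ≠ 2 := by rcases hyp.1 with rfl | rfl <;> decide
  set N := baseLevel W p k
  have : Fact (CuspForm.HasIntegralStructure N 2) :=
    ⟨Fermat.Agent.MF.IntStruct.hasIntegralStructure N 2⟩
  have := finite_hSpace (𝒪 := U.𝒪) N
  have := free_hSpace (𝒪 := U.𝒪) N
  set S : Set ℕ := (↑(minSet W p) : Set ℕ) with hS
  have hSN : ∀ q : ℕ, q.Prime → q ∣ N → q ∈ S := fun q hq hqN =>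
    Finset.mem_coe.mpr (mem_minSet_of_dvd_baseLevel hp hq hqN)
  have hgood : ∀ ℓ : ℕ, ℓ.Prime → ℓ ∉ S → ¬ ℓ ∣ N := fun ℓ hℓ hℓS h => hℓS (hSN ℓ hℓ h)
  -- an eigen class of the base point
  obtain ⟨x₀, hx₀, h0⟩ : ∃ x ∈ U.baseEigen, x ≠ 0 := by
    refine (Submodule.ne_bot_iff _).1 fun hb => finrank_baseEigen_ne_zero U ?_
    rw [hb, finrank_bot]
  obtain ⟨h, hfix⟩ := occurs_of_eigen (S := S) (lam := TWPrimes.lam (U := U)) U.a hgood
    (fun _ => rfl) hx₀ h0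
  -- the localised part is parabolic
  obtain ⟨ℓ₀, hℓ₀, hℓ₀S, hℓ₀N, hℓ₀ne⟩ := U.exists_prime_one_mod hp N (minSet W p)
  let i₀ : PrimeIdx S := ⟨ℓ₀, hℓ₀, fun h => hℓ₀S (Finset.mem_coe.mp h)⟩
  have hi₀1 : ((ℓ₀ : ℕ) : ZMod N) = 1 := by
    rw [← Nat.cast_one, ZMod.natCast_eq_natCast_iff]
    exact ((Nat.modEq_iff_dvd' hℓ₀.one_le).2 hℓ₀N).symm
  let M : Submodule U.𝒪 (HK.HSpace N U.𝒪) := localPart h
  let g : M →ₗ[U.𝒪] ↥(LinearMap.range (h.idem (heckeFam_comm N S))) :=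
    LinearMap.codRestrict _ ((HK.HSpace.homLin N U.𝒪).comp M.subtype) fun x => x.2
  have hg : Function.Bijective g := by
    refine ⟨fun x y hxy => Subtype.ext (HK.HSpace.hom_injective ?_), fun y => ?_⟩
    · have h' := congrArg Subtype.val hxy
      exact h'
    · obtain ⟨x, hx, hxy⟩ := exists_localPart_eq h i₀ hi₀1
        (hgood ℓ₀ hℓ₀ i₀.2.2) hℓ₀ne y.2
      exact ⟨⟨x, hx⟩, Subtype.ext hxy⟩
  have hfin : Module.Finite U.𝒪 M :=
    Module.Finite.of_injective M.subtype Subtype.val_injective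
  have : Module.IsTorsionFree U.𝒪 M := by
    exact Subtype.val_injective.moduleIsTorsionFree M.subtype fun c m => map_smul M.subtype c m
  have : Module.Free U.𝒪 M := Module.free_of_finite_type_torsion_free'
  have hmem₀ : ∀ x ∈ U.baseEigen, x ∈ M := fun x hx => (mem_localPart h).2 (hfix x hx)
  have : Nontrivial M := ⟨⟨x₀, hmem₀ x₀ hx₀⟩, 0, fun e => h0 (congrArg Subtype.val e)⟩
  -- the action of the Hecke algebra
  let inc := Subalgebra.inclusion (CuspForm.heckeAlgebra_mono (N := N) (k := 2)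
    (Set.empty_subset S))
  let Φ : ↥(CuspForm.heckeAlgebra N 2 S) →+* Module.End U.𝒪 M :=
    { toFun := fun t => (HK.heckeAct N U.𝒪 (inc t)).restrict
        fun x hx => goodAlg_stable h (heckeAct_mem_goodAlg hSN t) x hx
      map_one' := LinearMap.ext fun x => Subtype.ext (by simp)
      map_mul' := fun s t => LinearMap.ext fun x => Subtype.ext (by simp)
      map_zero' := LinearMap.ext fun x => Subtype.ext (by simp)
      map_add' := fun s t => LinearMap.ext fun x => Subtype.ext (by simp) }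
  have hΦ : ∀ (t : ↥(CuspForm.heckeAlgebra N 2 S)) (x : M),
      ((Φ t x : M) : HK.HSpace N U.𝒪) = HK.heckeAct N U.𝒪 (inc t) (x : HK.HSpace N U.𝒪) :=
    fun _ _ => rfl
  have hΦT : ∀ (ℓ : ℕ) (hℓ : ℓ.Prime) (hℓN : ¬ ℓ ∣ N) (hℓS : ℓ ∉ S) (x : M),
      ((Φ (CuspForm.heckeAlgebra.T hℓ hℓN hℓS) x : M) : HK.HSpace N U.𝒪).hom =
        heckeFam U.𝒪 N S ⟨ℓ, hℓ, hℓS⟩ (x : HK.HSpace N U.𝒪).hom := by
    intro ℓ hℓ hℓN hℓS x
    have : Fact ℓ.Prime := ⟨hℓ⟩
    rw [hΦ, heckeAct_T hℓ hℓN hℓS]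
    exact HK.hom_heckeEnd ℓ _
  have hnil : ∀ (ℓ : ℕ) (hℓ : ℓ.Prime) (hℓN : ¬ ℓ ∣ N) (hℓS : ℓ ∉ S),
      ∃ c : U.𝒪, residue U.𝒪 c = (fun n => residue U.𝒪 (U.a n)) ℓ ∧
        NilpModM (𝒪 := U.𝒪) (Φ (CuspForm.heckeAlgebra.T hℓ hℓN hℓS) - algebraMap U.𝒪 _ c) := by
    intro ℓ hℓ hℓN hℓS
    refine ⟨U.a ℓ, rfl, (TWLevel.nilpModM_iff _).2 ?_⟩
    set d : famAlg U.𝒪 (heckeFam U.𝒪 N S) :=
      famGen U.𝒪 (heckeFam U.𝒪 N S) ⟨ℓ, hℓ, hℓS⟩ - algebraMap U.𝒪 _ (U.a ℓ)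
    have hd : h.char d = 0 := by
      have e1 := h.char_gen ⟨ℓ, hℓ, hℓS⟩
      have e2 := h.char.commutes (U.a ℓ)
      refine (map_sub h.char _ _).trans ?_
      erw [e1, e2]
      exact sub_self _
    obtain ⟨j, hj⟩ := exists_pow_idem_mem (heckeFam_comm N S) h hd
    refine ⟨j, fun x => ?_⟩
    set G : M →ₗ[U.𝒪] LR.Hom1 N U.𝒪 := (HK.HSpace.homLin N U.𝒪).comp M.subtype with hG
    have hGrange : LinearMap.range G =
        (LinearMap.range (h.idem (heckeFam_comm N S))).restrictScalars U.𝒪 := by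
      refine le_antisymm (fun y hy => ?_) fun y hy => ?_
      · obtain ⟨m, rfl⟩ := hy
        exact m.2
      · obtain ⟨m, hm⟩ := hg.2 ⟨y, hy⟩
        exact ⟨m, congrArg Subtype.val hm⟩
    have hpow : ∀ (n : ℕ) (y : M), G (((Φ (CuspForm.heckeAlgebra.T hℓ hℓN hℓS) -
        algebraMap U.𝒪 _ (U.a ℓ)) ^ n) y) =
          ((d : Module.End U.𝒪 (LR.Hom1 N U.𝒪)) ^ n) (G y) := by
      intro n
      induction n with
      | zero => intro y; rfl
      | succ n ih =>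
        intro y
        rw [pow_succ, Module.End.mul_apply, ih, pow_succ, Module.End.mul_apply]
        refine congrArg _ ?_
        show ((Φ _ y : M) : HK.HSpace N U.𝒪).hom - U.a ℓ • (y : HK.HSpace N U.𝒪).hom = _
        rw [hΦT]
        rfl
    have hGinj : Function.Injective G := fun a b hab =>
      Subtype.ext (HK.HSpace.hom_injective hab)
    have h2 : G (((Φ (CuspForm.heckeAlgebra.T hℓ hℓN hℓS) -
        algebraMap U.𝒪 _ (U.a ℓ)) ^ j) x) ∈
          (maximalIdeal U.𝒪 • (⊤ : Submodule U.𝒪 M)).map G := by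
      rw [hpow, Submodule.map_smul'', Submodule.map_top, hGrange,
        ← show h.idem (heckeFam_comm N S) (G x) = G x from (mem_localPart h).1 x.2]
      exact hj _
    obtain ⟨z, hz, hzx⟩ := h2
    exact hGinj hzx ▸ hz
  obtain ⟨θ, hθ, Ψ, hΨ⟩ :=
    exists_heckeLocal_action hSN Φ (fun n => residue U.𝒪 (U.a n)) hnil
  -- the deformation ring
  obtain ⟨H, hHπ, hcond, hres⟩ := exists_baseHeckeRep hrep hyp U θ hθ
  obtain ⟨f, ⟨hf, hef⟩, -⟩ := D.universal _ H.residue_surjective H.ρ hcond hres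
  let _ : Module D.R M := Module.compHom M (Ψ.comp f).toRingHom
  have hsmul : ∀ (t : D.R) (m : M), t • m = Ψ (f t) m := fun _ _ => rfl
  have : IsScalarTower U.𝒪 D.R M := ⟨fun c t m => by
    rw [hsmul, hsmul, map_smul, map_smul]; rfl⟩
  have htrace : ∀ (ℓ : ℕ) (hℓ : ℓ.Prime) (hℓN : ¬ ℓ ∣ N) (hℓS : ℓ ∉ S)
      (P : ValuationSubring (AlgebraicClosure ℚ)), P.LiesOverPrime ℓ →
      ∀ σ : AlgebraicClosure ℚ ≃ₐ[ℚ] AlgebraicClosure ℚ, P.IsFrobeniusAt σ ℓ → ∀ m : M,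
        LinearMap.trace D.R D.ρ.V (D.ρ.ρ σ) • m =
          Φ (CuspForm.heckeAlgebra.T hℓ hℓN hℓS) m := by
    intro ℓ hℓ hℓN hℓS P hP σ hσ m
    have e : f (LinearMap.trace D.R D.ρ.V (D.ρ.ρ σ)) =
        H.π (CuspForm.heckeAlgebra.T hℓ hℓN hℓS) := by
      rw [← trace_eq_of_charpoly (H.charpoly_frob ℓ hℓ hℓN hℓS P hP σ hσ),
        ← trace_eq_of_isEquiv hef σ]
      exact (trace_baseChangeAlong (f : D.R →+* CuspForm.heckeLocal N S U.𝒪 θ) hf D.ρ σ).symm
    rw [hsmul, e, hHπ, hΨ]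
  -- every element acts through the good operators
  let R' : Subalgebra U.𝒪 (Module.End U.𝒪 M) :=
    { carrier := {c | ∃ b ∈ goodAlg N U.𝒪,
        ∀ x : M, ((c x : M) : HK.HSpace N U.𝒪) = b (x : HK.HSpace N U.𝒪)}
      mul_mem' := by
        rintro c c' ⟨b, hb, hc⟩ ⟨b', hb', hc'⟩
        refine ⟨b * b', mul_mem hb hb', fun x => ?_⟩
        show ((c (c' x) : M) : HK.HSpace N U.𝒪) = b (b' x)
        rw [hc, hc']
      add_mem' := by
        rintro c c' ⟨b, hb, hc⟩ ⟨b', hb', hc'⟩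
        refine ⟨b + b', add_mem hb hb', fun x => ?_⟩
        show ((c x : M) : HK.HSpace N U.𝒪) + (c' x : M) = b x + b' x
        rw [hc, hc']
      algebraMap_mem' := fun r => ⟨algebraMap U.𝒪 _ r, Subalgebra.algebraMap_mem _ r,
        fun x => rfl⟩ }
  have hrestr : ∀ t : D.R, ∃ b ∈ goodAlg N U.𝒪,
      ∀ x : M, ((t • x : M) : HK.HSpace N U.𝒪) = b (x : HK.HSpace N U.𝒪) := fun t =>
    TWLevel.mem_of_forall_T hSN Ψ R' (fun ℓ hℓ hℓN hℓS =>
      ⟨_, heckeAct_mem_goodAlg hSN (CuspForm.heckeAlgebra.T hℓ hℓN hℓS), fun x => by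
        rw [hΨ]; exact hΦ _ x⟩) (f t)
  choose b hbmem hb using hrestr
  -- the point of the base lattice is the given point
  let m₀ : M := ⟨x₀, hmem₀ x₀ hx₀⟩
  have huniq : ∀ u v : U.𝒪, u • x₀ = v • x₀ → u = v := fun u v h' => by
    by_contra hne
    refine h0 (hSpace_smul_cancel (sub_ne_zero.mpr hne) ?_)
    rw [smul_zero, sub_smul, h', sub_self]
  have hscal : ∀ t : D.R, ∃ c : U.𝒪, ∀ x : M, (x : HK.HSpace N U.𝒪) ∈ U.baseEigen →
      t • x = c • x := fun t => by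
    obtain ⟨c, hc⟩ := exists_scalar_goodAlg U.a (hbmem t)
    exact ⟨c, fun x hx => Subtype.ext ((hb t x).trans (hc _ hx))⟩
  choose c hc using hscal
  have hc₀ : ∀ (t : D.R) (u : U.𝒪), t • m₀ = u • m₀ → c t = u := fun t u hu =>
    huniq _ _ (congrArg Subtype.val ((hc t m₀ hx₀).symm.trans hu))
  let π' : D.R →ₐ[U.𝒪] U.𝒪 :=
    { toFun := c
      map_one' := hc₀ 1 1 (by rw [one_smul, one_smul])
      map_mul' := fun s t => hc₀ _ _ (by
        rw [mul_smul, hc t m₀ hx₀, smul_comm, hc s m₀ hx₀, smul_smul, mul_comm])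
      map_zero' := hc₀ 0 0 (by rw [zero_smul, zero_smul])
      map_add' := fun s t => hc₀ _ _ (by rw [add_smul, hc s m₀ hx₀, hc t m₀ hx₀, add_smul])
      commutes' := fun r => hc₀ _ _ (by rw [algebraMap_smul]; rfl) }
  have hres𝒪 : Function.Surjective (residue U.𝒪 ∘ algebraMap U.𝒪 U.𝒪) := residue_surjective
  have : IsLocalHom (algebraMap U.𝒪 U.𝒪) := ⟨fun _ h => h⟩
  have hπT : ∀ (ℓ : ℕ), ℓ.Prime → ℓ ∉ minSet W p →
      ∀ P : ValuationSubring (AlgebraicClosure ℚ), P.LiesOverPrime ℓ →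
      ∀ σ : AlgebraicClosure ℚ ≃ₐ[ℚ] AlgebraicClosure ℚ, P.IsFrobeniusAt σ ℓ →
        π (LinearMap.trace D.R D.ρ.V (D.ρ.ρ σ)) = U.a ℓ := by
    intro ℓ hℓ hℓS P hP σ hσ
    rw [← trace_eq_of_charpoly (U.base_charpoly ℓ hℓ hℓS P hP σ hσ), ← trace_eq_of_isEquiv he σ]
    exact (trace_baseChangeAlong (π : D.R →+* U.𝒪) hπ D.ρ σ).symm
  have hππ' : π = π' := by
    refine algHom_ext_of_frobenius_trace D (TWLevel.detIsCyclotomic_of_cond D.isOfType) hp2 hres𝒪
      π π' hπ (IsLocalHom.of_surjective _ (NumCrit.aug_surjective π'))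
      (TWLevel.closed_baseChange (closed_cond hp2 k.base _ _) hres𝒪 π hπ D.isOfType) (minSet W p)
      fun ℓ hℓ hℓS P hP σ hσ => ?_
    have hℓS' : ℓ ∉ S := fun h => hℓS (Finset.mem_coe.mp h)
    have : Fact ℓ.Prime := ⟨hℓ⟩
    rw [hπT ℓ hℓ hℓS P hP σ hσ]
    refine (hc₀ _ _ ?_).symm
    rw [htrace ℓ hℓ (hgood ℓ hℓ hℓS') hℓS' P hP σ hσ]
    refine Subtype.ext ?_
    rw [hΦ, heckeAct_T hℓ (hgood ℓ hℓ hℓS') hℓS']
    exact (mem_eigenClasses _ _).mp hx₀ ℓ (hgood ℓ hℓ hℓS')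
  -- the eigen part is the base lattice
  set L₀ : Submodule U.𝒪 M := NumCrit.eigenSub π M with hL₀
  have hback : ∀ x ∈ U.baseEigen, ∃ m ∈ L₀, M.subtype m = x := fun x hx => by
    refine ⟨⟨x, hmem₀ x hx⟩, NumCrit.mem_eigenSub.mpr fun t ht => ?_, rfl⟩
    rw [hc t _ hx, show c t = π' t from rfl, ← hππ', show π t = 0 from ht, zero_smul]
  have hforth : ∀ m ∈ L₀, M.subtype m ∈ U.baseEigen := fun m hm => by
    refine mem_baseEigen_of_outside_minSet U hp ((mem_eigenClasses _ _).mpr fun ℓ hℓS hfact => ?_)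
    have hℓ := hfact.out
    have hℓS' : ℓ ∉ S := fun h => hℓS (Finset.mem_coe.mp h)
    obtain ⟨P, hP⟩ := Fermat.Agent.Deform.exists_valuationSubring_liesOverPrime hℓ
    obtain ⟨σ, hσ⟩ := Fermat.Agent.Deform.exists_isFrobeniusAt hℓ hP
    have e := NumCrit.smul_eq_of_mem_eigenSub hm (LinearMap.trace D.R D.ρ.V (D.ρ.ρ σ))
    rw [hπT ℓ hℓ hℓS P hP σ hσ, htrace ℓ hℓ (hgood ℓ hℓ hℓS') hℓS' P hP σ hσ] at e
    have e' := congrArg M.subtype e
    rw [map_smul, Submodule.subtype_apply, hΦ, heckeAct_T hℓ (hgood ℓ hℓ hℓS') hℓS'] at e'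
    exact e'
  have hmap : L₀.map M.subtype = U.baseEigen := le_antisymm
    (Submodule.map_le_iff_le_comap.mpr hforth) fun x hx => by
      obtain ⟨m, hm, rfl⟩ := hback x hx
      exact Submodule.mem_map_of_mem hm
  -- the idempotent among the good operators
  obtain ⟨E, hE, hEx⟩ : ∃ E ∈ goodAlg N U.𝒪, ∀ x : HK.HSpace N U.𝒪,
      (E x).hom = h.idem (heckeFam_comm N S) x.hom := by
    have key : ∀ d ∈ famAlg U.𝒪 (heckeFam U.𝒪 N S), ∃ E ∈ goodAlg N U.𝒪,
        ∀ x : HK.HSpace N U.𝒪, (E x).hom = d x.hom := by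
      intro d hd
      induction hd using Algebra.adjoin_induction with
      | mem d hd =>
        obtain ⟨i, rfl⟩ := hd
        exact ⟨_, heckeEnd_mem_goodAlg (ℓ := i.1) (hgood i.1 i.2.1 i.2.2),
          fun x => HK.hom_heckeEnd i.1 x⟩
      | algebraMap r => exact ⟨algebraMap U.𝒪 _ r, Subalgebra.algebraMap_mem _ r, fun x => rfl⟩
      | add d d' _ _ h1 h2 =>
        obtain ⟨E, hE, h1⟩ := h1
        obtain ⟨E', hE', h2⟩ := h2
        exact ⟨E + E', add_mem hE hE', fun x => by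
          show (E x).hom + (E' x).hom = d x.hom + d' x.hom
          rw [h1, h2]⟩
      | mul d d' _ _ h1 h2 =>
        obtain ⟨E, hE, h1⟩ := h1
        obtain ⟨E', hE', h2⟩ := h2
        exact ⟨E * E', mul_mem hE hE', fun x => by
          show (E (E' x)).hom = d (d' x.hom)
          rw [h1, h2]⟩
    exact key _ (h.idem_mem (heckeFam_comm N S))
  have hEmem : ∀ x, E x ∈ M := fun x => by
    show (E x).hom ∈ LinearMap.range (h.idem (heckeFam_comm N S))
    rw [hEx]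
    exact ⟨_, rfl⟩
  have hEfix : ∀ x ∈ M, E x = x := fun x hx =>
    HK.HSpace.hom_injective ((hEx x).trans ((mem_localPart h).1 hx))
  let B : M →ₗ[U.𝒪] M →ₗ[U.𝒪] U.𝒪 :=
    (twistedPairing N U.𝒪).compl₁₂ M.subtype M.subtype
  refine ⟨{
    h := h
    M := M
    e := LinearEquiv.ofBijective g hg
    e_trace := fun i P hP σ hσ x => ?_
    B := B
    smul_eq_zero_of_isNilpotent := fun t ht m => ?_
    adj := fun t m l _ => ?_
    surj := fun φ => ?_
    finrank_eigenSub := ?_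
    length_congModule := ?_ }⟩
  · show ((LinearMap.trace D.R D.ρ.V (D.ρ.ρ σ) • x : M) : HK.HSpace N U.𝒪).hom = _
    rw [htrace i.1 i.2.1 (hgood i.1 i.2.1 i.2.2) i.2.2 P hP σ hσ, hΦT]
    rfl
  · obtain ⟨n, hn⟩ := ht
    have key : b t * E = 0 := by
      refine eq_zero_of_isNilpotent_mem_adjoin N U.𝒪 (mul_mem (hbmem t) hE) ⟨n + 1, ?_⟩
      rw [Commute.mul_pow (goodAlg_commute (hbmem t) hE)]
      refine LinearMap.ext fun x => ?_
      show (b t ^ (n + 1)) ((E ^ (n + 1)) x) = 0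
      have hx : (E ^ (n + 1)) x ∈ M := by rw [pow_succ']; exact hEmem _
      have hpow : ∀ (j : ℕ) (y : M),
          ((t ^ j • y : M) : HK.HSpace N U.𝒪) = (b t ^ j) (y : HK.HSpace N U.𝒪) := by
        intro j
        induction j with
        | zero => intro y; rw [pow_zero, pow_zero, one_smul]; rfl
        | succ j ih =>
          intro y
          rw [pow_succ, mul_smul, ih, hb, pow_succ, Module.End.mul_apply]
      rw [show (E ^ (n + 1)) x = ((⟨_, hx⟩ : M) : HK.HSpace N U.𝒪) from rfl, ← hpow,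
        pow_succ, hn, zero_mul, zero_smul]
      rfl
    refine Subtype.ext ?_
    rw [hb t m, ← hEfix m m.2]
    exact LinearMap.congr_fun key _
  · show twistedPairing N U.𝒪 ((t • m : M) : HK.HSpace N U.𝒪) l =
      twistedPairing N U.𝒪 m ((t • l : M) : HK.HSpace N U.𝒪)
    rw [hb, hb]
    exact twistedPairing_goodAlg (hbmem t) _ _
  · let eL : L₀ ≃ₗ[U.𝒪] U.baseEigen :=
      (Submodule.equivMapOfInjective M.subtype Subtype.val_injective L₀).trans
        (LinearEquiv.ofEq _ _ hmap)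
    obtain ⟨w, hw⟩ := exists_twistedPairing_eq (N := N) {ℓ | ¬ ℓ ∣ N} U.a
      (φ ∘ₗ eL.symm.toLinearMap)
    refine ⟨⟨E w, hEmem w⟩, LinearMap.ext fun l => ?_⟩
    show twistedPairing N U.𝒪 (E w) (l.1 : HK.HSpace N U.𝒪) = φ l
    rw [twistedPairing_goodAlg hE, hEfix _ l.1.2]
    exact (hw (eL l)).trans (congrArg φ (eL.symm_apply_apply l))
  · rw [← hmap]
    exact (Submodule.equivMapOfInjective M.subtype Subtype.val_injective L₀).finrank_eq
  · have e := length_congModule_eq_add' B (twistedPairing N U.𝒪) L₀ U.baseEigen M.subtype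
      (fun x _ hx => Subtype.ext hx) hmap (c := 1) fun x _ y _ => (one_mul (B x y)).symm
    rw [Ring.ord_one, mul_zero, add_zero] at e
    exact e.symm

end Fermat.Agent.R59
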